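/-
S60 conditional wiring (helper60).

`Fermat.Agent.S60W.modular_of_inputs`: the statement of S60 (every semistable integral Weierstrass
model with nonzero discriminant is modular over `ℚ`) follows from

* `H50`  : the statement of S50 (Langlands--Tunnell, residual modularity at 3, form (iii)),
* `H51`  : the statement of S51 (3 or 5 irreducible),
* `H52`  : the statement of S52 (3--5 switch),
* `H59`  : the statement of S59 (modularity lifting at 3 and 5),
* `HGAP` : level optimisation at 3: residual modularity at 3 of a level divisible by 9 (cube-free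
           away from 3, no inertia-fixed 3-torsion) gives residual modularity at 3 of a level not
           divisible by 9 (still cube-free away from 3).

All five are taken as hypotheses here; nothing frozen is cited.
-/
import Mathlib
import Fermat.Prelude.Def_FLTPrelim_FreyPackage
import Fermat.Prelude.Def_FLTPrelim_GaloisRep
import Fermat.Prelude.Def_FLTPrelim_Modularity
import Fermat.Prelude.Def_FLTPrelim_ModularRep
import Fermat.Prelude.Def_FLTPrelim_Ramification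
import Fermat.Prelude.Def_WeierstrassCurve_Mlc1RowStatement

set_option autoImplicit false

open WeierstrassCurve
open scoped WeierstrassCurve.Affine

namespace Fermat.Agent.S60W

/-- The type of S50. -/
def Stmt50 : Prop :=
  ∀ (W : WeierstrassCurve ℤ), W.Δ ≠ 0 → W.IsSemistableModel → W.ModRepIsIrreducible 3 →
    ∃ M : ℕ, 0 < M ∧ W.IsResiduallyModularOfLevel 3 M ∧
      (∀ q : ℕ, q.Prime → q ≠ 3 → ¬ q ^ 3 ∣ M) ∧
      (3 ^ 2 ∣ M →
        ∀ A : ValuationSubring (AlgebraicClosure ℚ), A.LiesOverPrime 3 →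
          ∀ x : Submodule.torsionBy ℤ
              ((W.map (Int.castRingHom ℚ))⁄(AlgebraicClosure ℚ)).Point (3 : ℕ),
            (∀ σ ∈ A.inertiaSubgroupIn ℚ, σ • x = x) → x = 0)

/-- The type of S51. -/
def Stmt51 : Prop :=
  ∀ (W : WeierstrassCurve ℤ), W.Δ ≠ 0 → W.IsSemistableModel →
    W.ModRepIsIrreducible 3 ∨ W.ModRepIsIrreducible 5

/-- The type of S52. -/
def Stmt52 : Prop :=
  ∀ (W : WeierstrassCurve ℤ), W.Δ ≠ 0 → W.IsSemistableModel → W.ModRepIsIrreducible 5 →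
    ∃ W' : WeierstrassCurve ℤ, W'.Δ ≠ 0 ∧ W'.IsSemistableModel ∧ W'.ModRepIsIrreducible 3 ∧
      ∀ ℓ : ℕ, ℓ.Prime → W.IsGoodPrimeFor ℓ → W'.IsGoodPrimeFor ℓ → ℓ ≠ 5 →
        (5 : ℤ) ∣ (W'.apOfModel ℓ - W.apOfModel ℓ)

/-- The type of S59. -/
def Stmt59 : Prop :=
  ∀ (p : ℕ), p = 3 ∨ p = 5 →
    ∀ (W : WeierstrassCurve ℤ), W.Δ ≠ 0 → W.IsSemistableModel → W.ModRepIsIrreducible p →
      ∀ (M₀ : ℕ) [NeZero M₀], W.IsResiduallyModularOfLevel p M₀ → ¬ p ^ 2 ∣ M₀ →
        (∀ q : ℕ, q.Prime → q ≠ p → ¬ q ^ 3 ∣ M₀) →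
        Mlc1IsModularModelOfExactConductorLevel W

/-- The missing link between S50 and S59: level optimisation at `3`. -/
def StmtGap : Prop :=
  ∀ (W : WeierstrassCurve ℤ), W.Δ ≠ 0 → W.IsSemistableModel → W.ModRepIsIrreducible 3 →
    ∀ M : ℕ, 0 < M → W.IsResiduallyModularOfLevel 3 M →
      (∀ q : ℕ, q.Prime → q ≠ 3 → ¬ q ^ 3 ∣ M) → 3 ^ 2 ∣ M →
      (∀ A : ValuationSubring (AlgebraicClosure ℚ), A.LiesOverPrime 3 →
          ∀ x : Submodule.torsionBy ℤ
              ((W.map (Int.castRingHom ℚ))⁄(AlgebraicClosure ℚ)).Point (3 : ℕ),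
            (∀ σ ∈ A.inertiaSubgroupIn ℚ, σ • x = x) → x = 0) →
      ∃ M₀ : ℕ, 0 < M₀ ∧ W.IsResiduallyModularOfLevel 3 M₀ ∧ ¬ 3 ^ 2 ∣ M₀ ∧
        (∀ q : ℕ, q.Prime → q ≠ 3 → ¬ q ^ 3 ∣ M₀)

/-- Every integral model is an integral model of its own base change. -/
theorem isIntegralModelOf_self (W : WeierstrassCurve ℤ) :
    W.IsIntegralModelOf (W.map (Int.castRingHom ℚ)) :=
  ⟨1, one_smul _ _⟩

/-- Modularity of exact conductor level gives modularity over `ℚ`. -/
theorem isModular_of_mlc1 {W : WeierstrassCurve ℤ}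
    (h : Mlc1IsModularModelOfExactConductorLevel W) :
    (W.map (Int.castRingHom ℚ)).IsModular := by
  obtain ⟨N, hN, -, -, hmod⟩ := h
  exact ⟨W, isIntegralModelOf_self W, N, hN, hmod⟩

/-- The `3`-irreducible case. -/
theorem mlc1_of_irreducible_three (H50 : Stmt50) (H59 : Stmt59) (HGAP : StmtGap)
    (W : WeierstrassCurve ℤ) (hΔ : W.Δ ≠ 0) (hW : W.IsSemistableModel)
    (h3 : W.ModRepIsIrreducible 3) : Mlc1IsModularModelOfExactConductorLevel W := by
  obtain ⟨M, hM, hres, hcube, h9⟩ := H50 W hΔ hW h3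
  by_cases h9M : 3 ^ 2 ∣ M
  · obtain ⟨M₀, hM₀, hres₀, h9M₀, hcube₀⟩ := HGAP W hΔ hW h3 M hM hres hcube h9M (h9 h9M)
    have : NeZero M₀ := ⟨hM₀.ne'⟩
    exact H59 3 (Or.inl rfl) W hΔ hW h3 M₀ hres₀ h9M₀ hcube₀
  · have : NeZero M := ⟨hM.ne'⟩
    exact H59 3 (Or.inl rfl) W hΔ hW h3 M hres h9M hcube

/-- A squarefree number is not divisible by the square of a prime. -/
theorem not_sq_dvd_of_squarefree {N q : ℕ} (hN : Squarefree N) (hq : q.Prime) :
    ¬ q ^ 2 ∣ N := by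
  intro h
  have := hN q (by rwa [pow_two] at h)
  exact hq.one_lt.ne' (Nat.isUnit_iff.mp this)

/-- A squarefree number is not divisible by the cube of a prime. -/
theorem not_cube_dvd_of_squarefree {N q : ℕ} (hN : Squarefree N) (hq : q.Prime) :
    ¬ q ^ 3 ∣ N := fun h =>
  not_sq_dvd_of_squarefree hN hq ((pow_dvd_pow q (by norm_num : 2 ≤ 3)).trans h)

/-- Transfer of modularity through a mod-`5` congruence: if `W'` is modular of exact conductor
level and the `a_ℓ` of `W` and `W'` agree mod `5` at common good primes `ℓ ≠ 5`, then `W` is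
residually modular at `5` of a squarefree level. -/
theorem residuallyModular_five_of_congr {W W' : WeierstrassCurve ℤ}
    (h' : Mlc1IsModularModelOfExactConductorLevel W')
    (hcong : ∀ ℓ : ℕ, ℓ.Prime → W.IsGoodPrimeFor ℓ → W'.IsGoodPrimeFor ℓ → ℓ ≠ 5 →
      (5 : ℤ) ∣ (W'.apOfModel ℓ - W.apOfModel ℓ)) :
    ∃ N : ℕ, 0 < N ∧ Squarefree N ∧ W.IsResiduallyModularOfLevel 5 N := by
  obtain ⟨N, hN, hsq, hbad, f, hf, hfW'⟩ := h'
  obtain ⟨𝔪, h𝔪, h5⟩ := FLTPrelim.exists_maximalIdeal_natCast_prime_mem (p := 5) (by norm_num)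
  refine ⟨N, hN, hsq, f, 𝔪, hf, h𝔪, h5, ?_⟩
  intro ℓ hℓ hgood hℓN hℓ5
  have hgood' : W'.IsGoodPrimeFor ℓ := fun hdvd => hℓN ((hbad ℓ hℓ).mpr hdvd)
  refine ⟨((W'.apOfModel ℓ : ℤ) : integralClosure ℤ ℂ), ?_, ?_⟩
  · rw [hfW' ℓ hℓ hgood' hℓN]
    simp
  · obtain ⟨k, hk⟩ := hcong ℓ hℓ hgood hgood' hℓ5
    have : ((W'.apOfModel ℓ : ℤ) : integralClosure ℤ ℂ) - ((W.apOfModel ℓ : ℤ) : integralClosure ℤ ℂ)
        = ((5 : ℕ) : integralClosure ℤ ℂ) * ((k : ℤ) : integralClosure ℤ ℂ) := by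
      rw [← Int.cast_sub, hk]
      push_cast
      ring
    rw [this]
    exact Ideal.mul_mem_right _ _ h5

/-- **S60 from S50, S51, S52, S59 and the level-optimisation gap at `3`.** -/
theorem modular_of_inputs (H50 : Stmt50) (H51 : Stmt51) (H52 : Stmt52) (H59 : Stmt59)
    (HGAP : StmtGap) (W : WeierstrassCurve ℤ) (hΔ : W.Δ ≠ 0) (hW : W.IsSemistableModel) :
    (W.map (Int.castRingHom ℚ)).IsModular := by
  apply isModular_of_mlc1
  rcases H51 W hΔ hW with h3 | h5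
  · exact mlc1_of_irreducible_three H50 H59 HGAP W hΔ hW h3
  · obtain ⟨W', hΔ', hW', h3', hcong⟩ := H52 W hΔ hW h5
    have hmod' := mlc1_of_irreducible_three H50 H59 HGAP W' hΔ' hW' h3'
    obtain ⟨N, hN, hsq, hres⟩ := residuallyModular_five_of_congr hmod' hcong
    have : NeZero N := ⟨hN.ne'⟩
    exact H59 5 (Or.inr rfl) W hΔ hW h5 N hres
      (not_sq_dvd_of_squarefree hsq (by norm_num))
      (fun q hq _ => not_cube_dvd_of_squarefree hsq hq)

end Fermat.Agent.S60W
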